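/-
S16 (index of the Eisenstein ideal = (p-1)/gcd(p-1,12)): DEFINITIONS (helper19, S16 chief).
-/
import Fermat.Prelude.Def_CuspForm_HeckeLocal
import Fermat.Prelude.Def_CuspForm_HeckeEvalForms
import Fermat.Prelude.Def_HeckeGalois_EichlerShimura
import Fermat.Prelude.Def_ModularCurve_ModularUnit

set_option autoImplicit false

open ModularCurve CuspForm

namespace Fermat.Agent.S16

/-- the Hecke evaluation `HeckeAlg = ℤ[X_ℓ] → 𝕋 = heckeLatticeAlgebra p ∅`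
(`X_ℓ ↦ T_ℓ` for `ℓ ≠ p`, `X_p ↦ U_p`), exactly the map of the frozen statement -/
noncomputable def s16Phi (p : ℕ) [Fact p.Prime] : HeckeAlg →+* ↥(heckeLatticeAlgebra p ∅) :=
  (latticeRestrictHom p ∅).toRingHom.comp (heckeEvalForms p 2)

/-- the Eisenstein evaluation `HeckeAlg → ℤ` (`X_ℓ ↦ 1 + ℓ` for `ℓ ≠ p`, `X_p ↦ 1`); its kernel
is `eisensteinIdeal p` by definition -/
noncomputable def s16Ev (p : ℕ) : HeckeAlg →+* ℤ :=
  (MvPolynomial.aeval (R := ℤ) (eisensteinSystem p)).toRingHom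

/-- `σ'(n)`: the sum of the divisors of `n` prime to `p` -/
def s16Sigma (p n : ℕ) : ℕ := ∑ e ∈ n.divisors with ¬ p ∣ e, e

/-- `f` has integral `q`-expansion and `a_n(f) ≡ σ'(n) mod d` for all `n ≥ 1` -/
def S16Cong (p d : ℕ) (f : CuspForm (CongruenceSubgroup.Gamma0 p) 2) : Prop :=
  ∀ n : ℕ, 1 ≤ n → ∃ m : ℤ, ModularFormClass.qCoeff f n = (m : ℂ) ∧
    (m : ZMod d) = (s16Sigma p n : ZMod d)

/-- there is `G ∈ M_2(Γ₀(p))` with `a_0(G) = 1` whose higher `q`-coefficients are rational,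
`ℓ`-integral and divisible by `ℓ ^ e` -/
def S16Unit (p ℓ e : ℕ) : Prop :=
  ∃ G : ModularForm (CongruenceSubgroup.Gamma0 p) 2, ModularFormClass.qCoeff G 0 = 1 ∧
    ∀ n : ℕ, 1 ≤ n → ∃ r : ℚ, ModularFormClass.qCoeff G n = (r : ℂ) ∧
      (r = 0 ∨ (e : ℤ) ≤ padicValRat ℓ r)

/-- `e(p, ℓ) = 1 + v_ℓ(24 / gcd(p-1, 12))` (`= 1 + v_ℓ(gcd(p+1, 12))` for `p ≥ 5`). -/
def s16Exp (p ℓ : ℕ) : ℕ := 1 + padicValNat ℓ (24 / Nat.gcd (p - 1) 12)

/-- `U_p` on power series: `a_n ↦ a_{pn}` -/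
noncomputable def s16U (p : ℕ) (φ : PowerSeries ℂ) : PowerSeries ℂ :=
  PowerSeries.mk fun n => PowerSeries.coeff (p * n) φ

end Fermat.Agent.S16
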