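/-
S16-ALG (helper19): the frozen statement from LB + D + MF.
`𝕋 / Φ(eisensteinIdeal) ≅ ℤ / ev(ker Φ)`.
-/
import Fermat.Agent.S16.Defs

set_option autoImplicit false

open ModularCurve CuspForm

namespace Fermat.Agent.S16

/-- the formal Hecke algebra surjects onto the Hecke algebra of forms -/
theorem s16alg_heckeEvalForms_surjective (N : ℕ) [NeZero N] (k : ℤ) :
    Function.Surjective (heckeEvalForms N k) := by
  have htop : Algebra.adjoin ℤ (((↑) : ↥(heckeAlgebra N k ∅) → _) ⁻¹' heckeGenerators N k ∅) = ⊤ :=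
    Algebra.adjoin_adjoin_coe_preimage (R := ℤ) (s := heckeGenerators N k ∅)
  have h1 : (MvPolynomial.aeval (R := ℤ) (heckeFormsGen N k)).range = ⊤ := by
    rw [← Algebra.adjoin_range_eq_range_aeval, eq_top_iff, ← htop]
    apply Algebra.adjoin_mono
    rintro ⟨x, hx⟩ hx'
    rcases hx' with ⟨ℓ, hℓ, hℓN, -, rfl⟩ | ⟨q, hqN, hq, -, rfl⟩
    · refine ⟨⟨ℓ, hℓ⟩, ?_⟩
      rw [heckeFormsGen_of_not_dvd (show ¬ ((⟨ℓ, hℓ⟩ : Nat.Primes) : ℕ) ∣ N from hℓN)]
      rfl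
    · refine ⟨⟨q, hq⟩, ?_⟩
      rw [heckeFormsGen_of_dvd (show ((⟨q, hq⟩ : Nat.Primes) : ℕ) ∣ N from hqN)]
      rfl
  intro y
  have hy : y ∈ (MvPolynomial.aeval (R := ℤ) (heckeFormsGen N k)).range := h1 ▸ Algebra.mem_top
  obtain ⟨P, hP⟩ := hy
  exact ⟨P, hP⟩

theorem s16Phi_surjective (p : ℕ) [Fact p.Prime] : Function.Surjective (s16Phi p) :=
  (latticeRestrictHom_surjective p ∅).comp (s16alg_heckeEvalForms_surjective p 2)

theorem s16alg_sub_C_mem (p : ℕ) (P : HeckeAlg) :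
    P - MvPolynomial.C (s16Ev p P) ∈ eisensteinIdeal p := by
  unfold eisensteinIdeal
  rw [mem_eigenIdeal_iff, map_sub, MvPolynomial.aeval_C]
  show s16Ev p P - algebraMap ℤ ℤ (s16Ev p P) = 0
  simp

theorem s16alg_ev_eq_zero (p : ℕ) {Q : HeckeAlg} (hQ : Q ∈ eisensteinIdeal p) :
    s16Ev p Q = 0 :=
  (mem_eigenIdeal_iff _ _).1 hQ

theorem s16alg_Phi_C (p : ℕ) [Fact p.Prime] (a : ℤ) :
    s16Phi p (MvPolynomial.C a) = (a : ↥(heckeLatticeAlgebra p ∅)) := by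
  rw [show (MvPolynomial.C a : HeckeAlg) = ((a : ℤ) : HeckeAlg) from (map_intCast _ a),
    map_intCast]

theorem s16alg_ev_C (p : ℕ) (a : ℤ) : s16Ev p (MvPolynomial.C a) = a := by
  show MvPolynomial.aeval (eisensteinSystem p) (MvPolynomial.C a) = a
  rw [MvPolynomial.aeval_C]
  rfl

/-- `Φ P ≡ ev P` modulo the Eisenstein ideal of `𝕋` -/
theorem s16alg_Phi_sub_mem (p : ℕ) [Fact p.Prime] (P : HeckeAlg) :
    s16Phi p P - ((s16Ev p P : ℤ) : ↥(heckeLatticeAlgebra p ∅)) ∈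
      Ideal.map (s16Phi p) (eisensteinIdeal p) := by
  have h := Ideal.mem_map_of_mem (s16Phi p) (s16alg_sub_C_mem p P)
  rwa [map_sub, s16alg_Phi_C] at h

/-- an integer lies in the Eisenstein ideal of `𝕋` iff it is `ev P` for some `P ∈ ker Φ` -/
theorem s16alg_intCast_mem_iff (p : ℕ) [Fact p.Prime] (a : ℤ) :
    ((a : ℤ) : ↥(heckeLatticeAlgebra p ∅)) ∈ Ideal.map (s16Phi p) (eisensteinIdeal p) ↔
      ∃ P : HeckeAlg, s16Phi p P = 0 ∧ s16Ev p P = a := by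
  constructor
  · intro h
    obtain ⟨Q, hQ, hQa⟩ := (Ideal.mem_map_iff_of_surjective _ (s16Phi_surjective p)).1 h
    refine ⟨MvPolynomial.C a - Q, ?_, ?_⟩
    · rw [map_sub, s16alg_Phi_C, hQa, sub_self]
    · rw [map_sub, s16alg_ev_C, s16alg_ev_eq_zero p hQ, sub_zero]
  · rintro ⟨P, hP, rfl⟩
    have h := s16alg_Phi_sub_mem p P
    rw [hP, zero_sub] at h
    simpa using (Ideal.neg_mem_iff _).1 h

/-- **ALG** with the three inputs as hypotheses. -/
theorem s16_main_of (p : ℕ) [Fact p.Prime]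
    (hLB : ∀ P : HeckeAlg, s16Phi p P = 0 → (eisensteinNumerator p : ℤ) ∣ s16Ev p P)
    (hD : ∀ (d : ℕ) (χ : ↥(heckeLatticeAlgebra p ∅) →+* ZMod d),
      (∀ P : HeckeAlg, χ (s16Phi p P) = ((s16Ev p P : ℤ) : ZMod d)) →
      ∃ f : CuspForm (CongruenceSubgroup.Gamma0 p) 2, S16Cong p d f)
    (hMF : ∀ (d : ℕ) (f : CuspForm (CongruenceSubgroup.Gamma0 p) 2), S16Cong p d f →
      d ∣ eisensteinNumerator p) :
    Nat.card (↥(heckeLatticeAlgebra p ∅) ⧸
        Ideal.map ((latticeRestrictHom p ∅).toRingHom.comp (heckeEvalForms p 2))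
          (eisensteinIdeal p)) = eisensteinNumerator p := by
  show Nat.card (↥(heckeLatticeAlgebra p ∅) ⧸ Ideal.map (s16Phi p) (eisensteinIdeal p)) = _
  set I := Ideal.map (s16Phi p) (eisensteinIdeal p) with hI
  -- `ℤ → 𝕋/I` is onto
  set κ : ℤ →+* (↥(heckeLatticeAlgebra p ∅) ⧸ I) := Int.castRingHom _ with hκ
  have hκsurj : Function.Surjective κ := by
    intro x
    obtain ⟨t, rfl⟩ := Ideal.Quotient.mk_surjective x
    obtain ⟨P, rfl⟩ := s16Phi_surjective p t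
    refine ⟨s16Ev p P, ?_⟩
    have h := s16alg_Phi_sub_mem p P
    rw [← Ideal.Quotient.eq] at h
    rw [h, hκ, eq_intCast, map_intCast]
  have hκmem : ∀ a : ℤ, a ∈ RingHom.ker κ ↔
      ((a : ℤ) : ↥(heckeLatticeAlgebra p ∅)) ∈ I := by
    intro a
    rw [RingHom.mem_ker, hκ, eq_intCast, ← map_intCast (Ideal.Quotient.mk I),
      Ideal.Quotient.eq_zero_iff_mem]
  -- the generator
  obtain ⟨m, hm⟩ : ∃ m : ℕ, RingHom.ker κ = Ideal.span {(m : ℤ)} := by
    refine ⟨(Submodule.IsPrincipal.generator (RingHom.ker κ)).natAbs, ?_⟩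
    rw [Int.span_natAbs, Ideal.span_singleton_generator]
  let e : (↥(heckeLatticeAlgebra p ∅) ⧸ I) ≃+* ZMod m :=
    ((RingHom.quotientKerEquivOfSurjective hκsurj).symm.trans
      (Ideal.quotEquivOfEq hm)).trans (Int.quotientSpanNatEquivZMod m)
  have hcard : Nat.card (↥(heckeLatticeAlgebra p ∅) ⧸ I) = m := by
    rw [Nat.card_congr e.toEquiv, Nat.card_zmod]
  rw [hcard]
  apply Nat.dvd_antisymm
  · -- `m ∣ n` from D + MF
    obtain ⟨f, hf⟩ := hD m (e.toRingHom.comp (Ideal.Quotient.mk I)) (fun P => by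
      have h := s16alg_Phi_sub_mem p P
      rw [← hI, ← Ideal.Quotient.eq] at h
      show e (Ideal.Quotient.mk I (s16Phi p P)) = _
      rw [h, map_intCast, map_intCast])
    exact hMF m f hf
  · -- `n ∣ m` from LB
    have h1 : (m : ℤ) ∈ RingHom.ker κ := by
      rw [hm]
      exact Ideal.mem_span_singleton_self _
    obtain ⟨P, hP, hPm⟩ := (s16alg_intCast_mem_iff p (m : ℤ)).1 ((hκmem _).1 h1)
    have h2 := hLB P hP
    rw [hPm] at h2
    exact Int.natCast_dvd_natCast.1 h2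

end Fermat.Agent.S16
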