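/-
S16-MF1 (helper19): the modular-forms step MF from MF-small, EIS and the eight UB cases
(all as hypotheses): `G := (24/(p-1)) (E - f)`.
-/
import Fermat.Agent.S16.Defs
import Fermat.Prelude.Thm_CongruenceSubgroup_one_mem_strictPeriods_Gamma0

set_option autoImplicit false

open ModularCurve CuspForm
open UpperHalfPlane hiding I
open scoped MatrixGroups ModularForm

namespace Fermat.Agent.S16

/-! ### `q`-coefficients of `c • (E - f)` -/

theorem s16cases_hΓ (N : ℕ) :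
    (1 : ℝ) ∈ (Subgroup.map (Matrix.SpecialLinearGroup.mapGL ℝ)
      (CongruenceSubgroup.Gamma0 N)).strictPeriods :=
  CongruenceSubgroup.one_mem_strictPeriods_Gamma0 N

theorem s16cases_qCoeff (N : ℕ) (c : ℂ) (E : ModularForm (CongruenceSubgroup.Gamma0 N) 2)
    (f : CuspForm (CongruenceSubgroup.Gamma0 N) 2) (n : ℕ) :
    ModularFormClass.qCoeff
        ((c • (E - (f : ModularForm (CongruenceSubgroup.Gamma0 N) 2)) :
          ModularForm (CongruenceSubgroup.Gamma0 N) 2) : ℍ → ℂ) n =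
      c * (ModularFormClass.qCoeff E n - ModularFormClass.qCoeff f n) := by
  unfold ModularFormClass.qCoeff
  have h1 : (⇑(c • (E - (f : ModularForm (CongruenceSubgroup.Gamma0 N) 2))) : ℍ → ℂ) =
      c • ⇑(E - (f : ModularForm (CongruenceSubgroup.Gamma0 N) 2)) := by
    ext z
    simp
  have h2 : (⇑(E - (f : ModularForm (CongruenceSubgroup.Gamma0 N) 2)) : ℍ → ℂ) = ⇑E - ⇑f := by
    ext z
    simp
  rw [h1, ModularForm.qExpansion_smul one_pos (s16cases_hΓ N) c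
    (E - (f : ModularForm (CongruenceSubgroup.Gamma0 N) 2)), h2,
    ModularForm.qExpansion_sub one_pos (s16cases_hΓ N) E f]
  simp

theorem s16cases_qCoeff_zero (N : ℕ) (f : CuspForm (CongruenceSubgroup.Gamma0 N) 2) :
    ModularFormClass.qCoeff f 0 = 0 :=
  CuspFormClass.qExpansion_coeff_zero f one_pos (s16cases_hΓ N)

/-! ### arithmetic -/

theorem s16cases_padicValNat_eq (ℓ k m r : ℕ) [Fact ℓ.Prime] (h : m = ℓ ^ k * r)
    (hr : ¬ ℓ ∣ r) : padicValNat ℓ m = k := by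
  subst h
  have hr0 : r ≠ 0 := fun h0 => hr (h0 ▸ dvd_zero _)
  rw [padicValNat.mul (pow_ne_zero _ (Fact.out : ℓ.Prime).ne_zero) hr0, padicValNat.prime_pow,
    padicValNat.eq_zero_of_not_dvd hr, add_zero]

theorem s16cases_val (p : ℕ) (hp : 5 ≤ p) (ℓ : ℕ) [Fact ℓ.Prime] (a : ℕ)
    (hna : ¬ ℓ ^ a ∣ eisensteinNumerator p) (z : ℤ) (hz : ((ℓ ^ a : ℕ) : ℤ) ∣ z)
    (hz0 : z ≠ 0) :
    (s16Exp p ℓ : ℤ) ≤ padicValRat ℓ ((24 : ℚ) / ((p : ℚ) - 1) * z) := by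
  set g := Nat.gcd (p - 1) 12 with hg
  have hg1 : g ∣ p - 1 := Nat.gcd_dvd_left _ _
  have hg24 : g ∣ 24 := (Nat.gcd_dvd_right _ _).trans (by norm_num)
  have hg0 : g ≠ 0 := fun h0 => by rw [h0] at hg24; omega
  set n := eisensteinNumerator p with hn
  have hng : n * g = p - 1 := Nat.div_mul_cancel hg1
  have hn0 : n ≠ 0 := by
    intro h0
    rw [h0, zero_mul] at hng
    omega
  set h24 := 24 / g with hh24
  have h24g : h24 * g = 24 := Nat.div_mul_cancel hg24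
  have h240 : h24 ≠ 0 := by
    intro h0
    rw [h0, zero_mul] at h24g
    omega
  have hpQ : ((p : ℚ) - 1) = (n : ℚ) * (g : ℚ) := by
    rw [← Nat.cast_mul, hng, Nat.cast_sub (by omega)]
    simp
  have h24Q : (24 : ℚ) = (h24 : ℚ) * (g : ℚ) := by
    rw [← Nat.cast_mul, h24g]
    norm_num
  have hgQ : (g : ℚ) ≠ 0 := Nat.cast_ne_zero.2 hg0
  have hnQ : (n : ℚ) ≠ 0 := Nat.cast_ne_zero.2 hn0
  have h24Q0 : (h24 : ℚ) ≠ 0 := Nat.cast_ne_zero.2 h240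
  have hzQ : (z : ℚ) ≠ 0 := Int.cast_ne_zero.2 hz0
  have hr : (24 : ℚ) / ((p : ℚ) - 1) * z = (h24 : ℚ) / (n : ℚ) * z := by
    rw [hpQ, h24Q]
    field_simp
  rw [hr, padicValRat.mul (div_ne_zero h24Q0 hnQ) hzQ, padicValRat.div h24Q0 hnQ,
    padicValRat.of_nat, padicValRat.of_nat, padicValRat.of_int]
  have hvz : (a : ℤ) ≤ padicValInt ℓ z := by
    have h1 : ((ℓ : ℤ) ^ a) ∣ z := by
      rwa [Nat.cast_pow] at hz
    rcases (padicValInt_dvd_iff a z).1 h1 with h0 | h2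
    · exact absurd h0 hz0
    · exact_mod_cast h2
  have hvn : padicValNat ℓ n < a := by
    by_contra hcon
    exact hna ((padicValNat_dvd_iff_le hn0).2 (not_lt.1 hcon))
  have hexp : s16Exp p ℓ = 1 + padicValNat ℓ h24 := rfl
  rw [hexp]
  push_cast
  have : (padicValNat ℓ n : ℤ) + 1 ≤ a := by exact_mod_cast hvn
  linarith

/-! ### MF1 -/

/-- **MF1** (EIS as a hypothesis). -/
theorem s16_mf_of_not_unit_of (p : ℕ) [Fact p.Prime] (hp : 5 ≤ p)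
    (hE : ∃ E : ModularForm (CongruenceSubgroup.Gamma0 p) 2,
      ModularFormClass.qCoeff E 0 = ((p : ℂ) - 1) / 24 ∧
      ∀ n : ℕ, 1 ≤ n → ModularFormClass.qCoeff E n = (s16Sigma p n : ℂ))
    (h : ∀ ℓ : ℕ, ℓ.Prime → ¬ S16Unit p ℓ (s16Exp p ℓ)) (d : ℕ)
    (f : CuspForm (CongruenceSubgroup.Gamma0 p) 2) (hf : S16Cong p d f) :
    d ∣ eisensteinNumerator p := by
  by_contra hd
  rw [Nat.dvd_iff_prime_pow_dvd_dvd] at hd
  push Not at hd
  obtain ⟨ℓ, a, hℓ, hda, hna⟩ := hd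
  have : Fact ℓ.Prime := ⟨hℓ⟩
  obtain ⟨E, hE0, hEn⟩ := hE
  have hp1 : ((p : ℂ) - 1) ≠ 0 := by
    have h1 : ((p : ℂ) - 1) = ((p - 1 : ℕ) : ℂ) := by
      rw [Nat.cast_sub (by omega)]
      simp
    rw [h1]
    exact Nat.cast_ne_zero.2 (by omega)
  apply h ℓ hℓ
  refine ⟨((24 : ℂ) / ((p : ℂ) - 1)) •
    (E - (f : ModularForm (CongruenceSubgroup.Gamma0 p) 2)), ?_, ?_⟩
  · rw [s16cases_qCoeff, hE0, s16cases_qCoeff_zero, sub_zero]
    field_simp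
  · intro k hk
    obtain ⟨m, hm, hmd⟩ := hf k hk
    refine ⟨(24 : ℚ) / ((p : ℚ) - 1) * (((s16Sigma p k : ℤ) - m : ℤ) : ℚ), ?_, ?_⟩
    · rw [s16cases_qCoeff, hEn k hk, hm]
      push_cast
      ring
    · by_cases hz : (s16Sigma p k : ℤ) - m = 0
      · left
        rw [hz]
        simp
      · right
        refine s16cases_val p hp ℓ a hna _ ?_ hz
        have h1 : (d : ℤ) ∣ (s16Sigma p k : ℤ) - m :=
          (ZMod.intCast_eq_intCast_iff_dvd_sub m (s16Sigma p k : ℤ) d).1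
            (by rw [hmd]; simp)
        exact (Int.natCast_dvd_natCast.2 hda).trans h1

/-! ### the exponent `s16Exp` by cases -/

theorem s16cases_gcd (p : ℕ) (hp : p.Prime) (hp5 : 5 ≤ p) :
    (p % 12 = 1 ∧ Nat.gcd (p - 1) 12 = 12) ∨ (p % 12 = 5 ∧ Nat.gcd (p - 1) 12 = 4) ∨
    (p % 12 = 7 ∧ Nat.gcd (p - 1) 12 = 6) ∨ (p % 12 = 11 ∧ Nat.gcd (p - 1) 12 = 2) := by
  have h2 : ¬ 2 ∣ p := fun h => by
    have := (Nat.prime_dvd_prime_iff_eq Nat.prime_two hp).1 h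
    omega
  have h3 : ¬ 3 ∣ p := fun h => by
    have := (Nat.prime_dvd_prime_iff_eq Nat.prime_three hp).1 h
    omega
  have hrec : Nat.gcd (p - 1) 12 = Nat.gcd ((p - 1) % 12) 12 := by
    rw [Nat.gcd_comm, Nat.gcd_rec 12 (p - 1)]
  have hcases : p % 12 = 1 ∨ p % 12 = 5 ∨ p % 12 = 7 ∨ p % 12 = 11 := by omega
  rcases hcases with h | h | h | h
  · left
    refine ⟨h, ?_⟩
    rw [hrec, show (p - 1) % 12 = 0 by omega]
    rfl
  · right; left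
    refine ⟨h, ?_⟩
    rw [hrec, show (p - 1) % 12 = 4 by omega]
    rfl
  · right; right; left
    refine ⟨h, ?_⟩
    rw [hrec, show (p - 1) % 12 = 6 by omega]
    rfl
  · right; right; right
    refine ⟨h, ?_⟩
    rw [hrec, show (p - 1) % 12 = 10 by omega]
    rfl

theorem s16cases_exp_ge5 (p : ℕ) (ℓ : ℕ) (hℓ : ℓ.Prime)
    (h5 : 5 ≤ ℓ) : s16Exp p ℓ = 1 := by
  unfold s16Exp
  have hdvd : 24 / Nat.gcd (p - 1) 12 ∣ 24 :=
    Nat.div_dvd_of_dvd ((Nat.gcd_dvd_right _ _).trans (by norm_num))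
  rw [padicValNat.eq_zero_of_not_dvd]
  intro h
  have h24 : ℓ ∣ 2 ^ 3 * 3 := h.trans hdvd
  rcases (Nat.Prime.dvd_mul hℓ).1 h24 with h2 | h3
  · have := Nat.le_of_dvd (by norm_num) (hℓ.dvd_of_dvd_pow h2)
    omega
  · have := Nat.le_of_dvd (by norm_num) h3
    omega

theorem s16cases_exp_three (p : ℕ) (hp : p.Prime) (hp5 : 5 ≤ p) :
    (p % 3 = 1 → s16Exp p 3 = 1) ∧ (p % 3 = 2 → s16Exp p 3 = 2) := by
  have : Fact (Nat.Prime 3) := ⟨Nat.prime_three⟩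
  unfold s16Exp
  rcases s16cases_gcd p hp hp5 with ⟨h, hg⟩ | ⟨h, hg⟩ | ⟨h, hg⟩ | ⟨h, hg⟩ <;> rw [hg] <;>
    refine ⟨fun h3 => ?_, fun h3 => ?_⟩ <;> try omega
  · rw [s16cases_padicValNat_eq 3 0 (24 / 12) 2 (by norm_num) (by norm_num)]
  · rw [s16cases_padicValNat_eq 3 1 (24 / 4) 2 (by norm_num) (by norm_num)]
  · rw [s16cases_padicValNat_eq 3 0 (24 / 6) 4 (by norm_num) (by norm_num)]
  · rw [s16cases_padicValNat_eq 3 1 (24 / 2) 4 (by norm_num) (by norm_num)]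

theorem s16cases_exp_two (p : ℕ) (hp : p.Prime) (hp5 : 5 ≤ p) :
    (p % 4 = 1 → s16Exp p 2 = 2) ∧ (p % 4 = 3 → s16Exp p 2 = 3) := by
  have : Fact (Nat.Prime 2) := ⟨Nat.prime_two⟩
  unfold s16Exp
  rcases s16cases_gcd p hp hp5 with ⟨h, hg⟩ | ⟨h, hg⟩ | ⟨h, hg⟩ | ⟨h, hg⟩ <;> rw [hg] <;>
    refine ⟨fun h3 => ?_, fun h3 => ?_⟩ <;> try omega
  · rw [s16cases_padicValNat_eq 2 1 (24 / 12) 1 (by norm_num) (by norm_num)]
  · rw [s16cases_padicValNat_eq 2 1 (24 / 4) 3 (by norm_num) (by norm_num)]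
  · rw [s16cases_padicValNat_eq 2 2 (24 / 6) 1 (by norm_num) (by norm_num)]
  · rw [s16cases_padicValNat_eq 2 2 (24 / 2) 3 (by norm_num) (by norm_num)]

/-- **UB** assembly: the eight cases as hypotheses. -/
theorem s16_not_unit_of (p : ℕ) [Fact p.Prime] (hp : 5 ≤ p)
    (ha : ∀ ℓ : ℕ, ℓ.Prime → 5 ≤ ℓ → ℓ ≠ p → ¬ ℓ ∣ p + 1 → ¬ S16Unit p ℓ 1)
    (hb : ¬ S16Unit p p 1)
    (hc : ∀ ℓ : ℕ, ℓ.Prime → 5 ≤ ℓ → ℓ ∣ p + 1 → ¬ S16Unit p ℓ 1)
    (hd : p % 3 = 1 → ¬ S16Unit p 3 1)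
    (hh : p % 3 = 2 → ¬ S16Unit p 3 2)
    (he : p % 4 = 1 → ¬ S16Unit p 2 2)
    (hf : p % 8 = 3 → ¬ S16Unit p 2 3)
    (hg : p % 8 = 7 → ¬ S16Unit p 2 3)
    (ℓ : ℕ) (hℓ : ℓ.Prime) : ¬ S16Unit p ℓ (s16Exp p ℓ) := by
  have hpp : p.Prime := Fact.out
  have h2 : ¬ 2 ∣ p := fun h => by
    have := (Nat.prime_dvd_prime_iff_eq Nat.prime_two hpp).1 h
    omega
  have h3 : ¬ 3 ∣ p := fun h => by
    have := (Nat.prime_dvd_prime_iff_eq Nat.prime_three hpp).1 h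
    omega
  by_cases h5 : 5 ≤ ℓ
  · rw [s16cases_exp_ge5 p ℓ hℓ h5]
    by_cases hℓp : ℓ = p
    · subst hℓp
      exact hb
    · by_cases hdvd : ℓ ∣ p + 1
      · exact hc ℓ hℓ h5 hdvd
      · exact ha ℓ hℓ h5 hℓp hdvd
  · have hℓ23 : ℓ = 2 ∨ ℓ = 3 := by
      have h2le := hℓ.two_le
      have hne4 : ℓ ≠ 4 := fun h4 => by
        rw [h4] at hℓ
        exact absurd hℓ (by norm_num)
      omega
    rcases hℓ23 with rfl | rfl
    · rcases (show p % 4 = 1 ∨ p % 4 = 3 by omega) with h4 | h4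
      · rw [(s16cases_exp_two p hpp hp).1 h4]
        exact he h4
      · rw [(s16cases_exp_two p hpp hp).2 h4]
        rcases (show p % 8 = 3 ∨ p % 8 = 7 by omega) with h8 | h8
        · exact hf h8
        · exact hg h8
    · rcases (show p % 3 = 1 ∨ p % 3 = 2 by omega) with h | h
      · rw [(s16cases_exp_three p hpp hp).1 h]
        exact hd h
      · rw [(s16cases_exp_three p hpp hp).2 h]
        exact hh h

/-- **MF** from MF-small, EIS and UB. -/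
theorem s16_mf_of (p : ℕ) [Fact p.Prime]
    (hsmall : p < 5 → ∀ (d : ℕ) (f : CuspForm (CongruenceSubgroup.Gamma0 p) 2),
      S16Cong p d f → d ∣ eisensteinNumerator p)
    (hE : ∃ E : ModularForm (CongruenceSubgroup.Gamma0 p) 2,
      ModularFormClass.qCoeff E 0 = ((p : ℂ) - 1) / 24 ∧
      ∀ n : ℕ, 1 ≤ n → ModularFormClass.qCoeff E n = (s16Sigma p n : ℂ))
    (hUB : 5 ≤ p → ∀ ℓ : ℕ, ℓ.Prime → ¬ S16Unit p ℓ (s16Exp p ℓ))
    (d : ℕ) (f : CuspForm (CongruenceSubgroup.Gamma0 p) 2) (hf : S16Cong p d f) :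
    d ∣ eisensteinNumerator p := by
  by_cases hp : p < 5
  · exact hsmall hp d f hf
  · exact s16_mf_of_not_unit_of p (not_lt.1 hp) hE (hUB (not_lt.1 hp)) d f hf

end Fermat.Agent.S16
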