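/-
S16-EIS (row 390, helper13): the Eisenstein series `E = (p E₂(pz) - E₂(z))/24 ∈ M₂(Γ₀(p))` with
`a_0 = (p-1)/24`, `a_n = σ'(n)` (sum of the divisors of `n` prime to `p`).
-/
import Fermat.Agent.S16.Defs
import Fermat.Agent.S16.UB.Coset
import Fermat.Agent.S23.UNqExp
import Fermat.Agent.S24.Ramanujan

set_option autoImplicit false
set_option linter.style.haveILetI false
set_option linter.unusedSectionVars false
set_option linter.unusedVariables false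

noncomputable section

namespace Fermat.Agent.S16

open UpperHalfPlane ModularForm ModularGroup CongruenceSubgroup EisensteinSeries
open Matrix.SpecialLinearGroup
open scoped MatrixGroups ModularForm Manifold ArithmeticFunction.sigma

/-! ### the `q`-expansion of `E₂` -/

theorem s16eis_analyticAt_E2 : AnalyticAt ℂ (cuspFunction 1 E2) 0 :=
  UpperHalfPlane.analyticAt_cuspFunction_zero one_pos Fermat.Agent.S24.periodic_E2_comp_ofComplex
    E2_mdifferentiable isBoundedAtImInfty_E2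

theorem s16eis_qExpansion_E2 (n : ℕ) :
    (qExpansion 1 E2).coeff n = if n = 0 then 1 else -24 * (ArithmeticFunction.sigma 1 n : ℂ) :=
  (UpperHalfPlane.qExpansion_coeff_unique (ContinuousMap.mk E2 E2_mdifferentiable.continuous)
    one_pos s16eis_analyticAt_E2 Fermat.Agent.S24.hasSum_E2_qParam n).symm

/-! ### arithmetic: `σ(n) = σ'(n) + p σ(n/p)` -/

theorem s16eis_sigma (p : ℕ) (hp : p.Prime) (n : ℕ) (hn : 1 ≤ n) :
    ArithmeticFunction.sigma 1 n =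
      s16Sigma p n + if p ∣ n then p * ArithmeticFunction.sigma 1 (n / p) else 0 := by
  classical
  have hn0 : n ≠ 0 := Nat.one_le_iff_ne_zero.mp hn
  rw [ArithmeticFunction.sigma_one_apply, s16Sigma,
    ← Finset.sum_filter_add_sum_filter_not n.divisors (fun e => ¬ p ∣ e)]
  congr 1
  simp only [not_not]
  split_ifs with hpn
  · -- divisors divisible by `p` are `p e'`, `e' ∣ n / p`
    rw [ArithmeticFunction.sigma_one_apply, Finset.mul_sum]
    obtain ⟨m, rfl⟩ := hpn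
    have hm0 : m ≠ 0 := fun h => hn0 (by rw [h, mul_zero])
    rw [Nat.mul_div_cancel_left m hp.pos]
    symm
    refine Finset.sum_bij (fun e _ => p * e) ?_ ?_ ?_ ?_
    · intro e he
      rw [Finset.mem_filter, Nat.mem_divisors]
      exact ⟨⟨Nat.mul_dvd_mul_left p (Nat.dvd_of_mem_divisors he), hn0⟩, dvd_mul_right p e⟩
    · intro a _ b _ hab
      exact Nat.eq_of_mul_eq_mul_left hp.pos hab
    · intro e he
      rw [Finset.mem_filter, Nat.mem_divisors] at he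
      obtain ⟨⟨hdvd, -⟩, e', rfl⟩ := he
      exact ⟨e', Nat.mem_divisors.mpr ⟨Nat.dvd_of_mul_dvd_mul_left hp.pos hdvd, hm0⟩, rfl⟩
    · intro e _
      rfl
  · apply Finset.sum_eq_zero
    intro e he
    rw [Finset.mem_filter, Nat.mem_divisors] at he
    exact absurd (he.2.trans he.1.1) hpn

/-! ### the form `E₂ ∣[2] diag(p,1) - E₂` -/

section Mod

variable (p : ℕ) [hp : Fact p.Prime]

/-- `E₂ ∣[2] diag(p,1) - E₂`, i.e. `z ↦ p E₂(pz) - E₂(z)` -/
def s16eisFun : ℍ → ℂ := E2 ∣[(2 : ℤ)] heckeDiagMatrix p - E2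

/-- `diag(p,1) γ = γ' diag(p,1)` with explicit `γ'` for `γ ∈ Γ₀(p)` -/
theorem s16eis_diag_mul (γ : SL(2, ℤ)) (hγ : γ ∈ Gamma0 p) :
    ∃ γ' : SL(2, ℤ), heckeDiagMatrix p * mapGL ℝ γ = mapGL ℝ γ' * heckeDiagMatrix p ∧
      γ 1 0 = p * γ' 1 0 ∧ γ' 1 1 = γ 1 1 := by
  have hN : p ≠ 0 := hp.out.ne_zero
  rw [Gamma0_mem] at hγ
  obtain ⟨e, he⟩ : (p : ℤ) ∣ γ 1 0 := (ZMod.intCast_zmod_eq_zero_iff_dvd _ _).mp hγ
  have hdet : γ 0 0 * γ 1 1 - γ 0 1 * γ 1 0 = 1 := by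
    have h := γ.det_coe
    rwa [Matrix.det_fin_two] at h
  have hdet' : Matrix.det !![γ 0 0, p * γ 0 1; e, γ 1 1] = 1 := by
    rw [Matrix.det_fin_two_of]
    linear_combination hdet + (γ 0 1) * he
  obtain ⟨g', hg'⟩ : ∃ g' : SL(2, ℤ),
      (g' : Matrix (Fin 2) (Fin 2) ℤ) = !![γ 0 0, p * γ 0 1; e, γ 1 1] := ⟨⟨_, hdet'⟩, rfl⟩
  have h10 : g' 1 0 = e := by
    show (g' : Matrix (Fin 2) (Fin 2) ℤ) 1 0 = e
    rw [hg']; rfl
  have h11 : g' 1 1 = γ 1 1 := by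
    show (g' : Matrix (Fin 2) (Fin 2) ℤ) 1 1 = γ 1 1
    rw [hg']; rfl
  refine ⟨g', ?_, by rw [h10, he], h11⟩
  ext i j
  fin_cases i <;> fin_cases j <;>
    simp [hN, Matrix.mul_apply, Fin.sum_univ_two, hg']
  all_goals first
    | (have := congrArg (Int.cast : ℤ → ℝ) he; push_cast at this ⊢; linear_combination this)
    | (have := congrArg (Int.cast : ℤ → ℝ) he; push_cast at this ⊢; linear_combination -this)
    | ring1

/-- `D₂ γ' ∣[2] diag(p,1) = D₂ γ` -/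
theorem s16eis_D2_slash (γ γ' : SL(2, ℤ)) (h10 : γ 1 0 = p * γ' 1 0) (h11 : γ' 1 1 = γ 1 1) :
    D2 γ' ∣[(2 : ℤ)] heckeDiagMatrix p = D2 γ := by
  have hN : p ≠ 0 := hp.out.ne_zero
  ext z
  rw [slash_heckeDiagMatrix_apply 2 hN]
  simp only [D2]
  have hden : denom γ' ((heckeDiagMatrix p • z : ℍ) : ℂ) = denom γ (z : ℂ) := by
    rw [coe_heckeDiagMatrix_smul hN]
    simp only [UpperHalfPlane.denom]
    show (((γ' 1 0 : ℤ) : ℝ) : ℂ) * ((p : ℂ) * (z : ℂ)) + (((γ' 1 1 : ℤ) : ℝ) : ℂ) =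
      (((γ 1 0 : ℤ) : ℝ) : ℂ) * (z : ℂ) + (((γ 1 1 : ℤ) : ℝ) : ℂ)
    rw [h10, h11]
    push_cast
    ring
  rw [hden, h10, show ((2 : ℤ) - 1) = 1 by norm_num, zpow_one]
  push_cast
  ring

/-- `ℂ`-scalars pass through `∣[2] diag(p,1)` -/
theorem s16eis_smul_slash_diag (c : ℂ) (f : ℍ → ℂ) :
    (c • f) ∣[(2 : ℤ)] heckeDiagMatrix p = c • (f ∣[(2 : ℤ)] heckeDiagMatrix p) := by
  rw [ModularForm.smul_slash, σ_heckeDiagMatrix]
  rfl

/-- `Γ₀(p)`-invariance -/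
theorem s16eisFun_slash (γ : SL(2, ℤ)) (hγ : γ ∈ Gamma0 p) :
    s16eisFun p ∣[(2 : ℤ)] γ = s16eisFun p := by
  obtain ⟨γ', hmul, h10, h11⟩ := s16eis_diag_mul p γ hγ
  have hmul' : heckeDiagMatrix p * (γ : GL (Fin 2) ℝ) = (γ' : GL (Fin 2) ℝ) * heckeDiagMatrix p :=
    hmul
  have h1 : (E2 ∣[(2 : ℤ)] heckeDiagMatrix p) ∣[(2 : ℤ)] γ =
      E2 ∣[(2 : ℤ)] heckeDiagMatrix p - (1 / (2 * riemannZeta 2)) • D2 γ := by
    rw [SL_slash, ← SlashAction.slash_mul, hmul', SlashAction.slash_mul, ← SL_slash,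
      E2_slash_action γ', sub_eq_add_neg, SlashAction.add_slash, SlashAction.neg_slash,
      s16eis_smul_slash_diag, s16eis_D2_slash p γ γ' h10 h11, ← sub_eq_add_neg]
  unfold s16eisFun
  rw [sub_eq_add_neg, SlashAction.add_slash, SlashAction.neg_slash, h1, E2_slash_action γ]
  abel

/-- holomorphy -/
theorem s16eisFun_mdiff : MDiff (s16eisFun p) :=
  (E2_mdifferentiable.slash 2 _).sub E2_mdifferentiable

/-- `D₂ S = 2πi / z` is bounded at `i∞` -/
theorem s16eis_D2_S_bdd : IsBoundedAtImInfty (D2 S) := by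
  rw [isBoundedAtImInfty_iff]
  refine ⟨2 * Real.pi, 1, fun z hz => ?_⟩
  have hden : denom S z = z := Fermat.Agent.S24.denom_S z
  have hS10 : ((S 1 0 : ℤ) : ℂ) = 1 := by simp [ModularGroup.S]
  simp only [D2]
  rw [hden, hS10, mul_one, norm_div]
  have h1 : ‖(2 * (Real.pi : ℂ) * Complex.I)‖ = 2 * Real.pi := by
    rw [norm_mul, norm_mul, Complex.norm_I, mul_one, Complex.norm_real, Real.norm_of_nonneg
      Real.pi_pos.le]
    simp
  rw [h1]
  have h2 : (1 : ℝ) ≤ ‖(z : ℂ)‖ := le_trans hz (Complex.abs_im_le_norm z |>.trans' (le_abs_self _))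
  exact div_le_self (by positivity) h2

/-- `E₂ ∣[2] S` is bounded at `i∞` -/
theorem s16eis_E2_slash_S_bdd : IsBoundedAtImInfty (E2 ∣[(2 : ℤ)] S) := by
  rw [E2_slash_action S]
  exact isBoundedAtImInfty_E2.sub ((s16eis_D2_S_bdd).const_smul_left _)

theorem s16eis_coe_GL_apply (γ : SL(2, ℤ)) (i j : Fin 2) :
    ((γ : GL (Fin 2) ℝ) : Matrix (Fin 2) (Fin 2) ℝ) i j = ((γ i j : ℤ) : ℝ) := rfl

theorem s16eis_coe_S : ((S : GL (Fin 2) ℝ) : Matrix (Fin 2) (Fin 2) ℝ) = !![0, -1; 1, 0] := by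
  ext i j
  rw [s16eis_coe_GL_apply]
  fin_cases i <;> fin_cases j <;> simp [ModularGroup.S]

/-- `diag(p,1) S = S diag(1,p)` -/
theorem s16eis_diag_mul_S :
    heckeDiagMatrix p * (S : GL (Fin 2) ℝ) = (S : GL (Fin 2) ℝ) * heckeMatrix p 0 := by
  have hN : p ≠ 0 := hp.out.ne_zero
  apply Units.ext
  rw [Units.val_mul, Units.val_mul, val_heckeDiagMatrix hN, val_heckeMatrix hN, s16eis_coe_S]
  ext i j
  fin_cases i <;> fin_cases j <;> simp [Matrix.mul_apply, Fin.sum_univ_two]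

/-- `(E₂ ∣ diag(p,1) - E₂) ∣ S` is bounded at `i∞` -/
theorem s16eisFun_slash_S_bdd : IsBoundedAtImInfty (s16eisFun p ∣[(2 : ℤ)] S) := by
  have hN : p ≠ 0 := hp.out.ne_zero
  have h1 : (E2 ∣[(2 : ℤ)] heckeDiagMatrix p) ∣[(2 : ℤ)] S =
      (E2 ∣[(2 : ℤ)] S) ∣[(2 : ℤ)] heckeMatrix p 0 := by
    rw [SL_slash, ← SlashAction.slash_mul, s16eis_diag_mul_S, SlashAction.slash_mul, ← SL_slash]
  unfold s16eisFun
  rw [sub_eq_add_neg, SlashAction.add_slash, SlashAction.neg_slash, h1, ← sub_eq_add_neg]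
  have h10 : (heckeMatrix p 0 : GL (Fin 2) ℝ) 1 0 = 0 := by
    show ((heckeMatrix p 0 : GL (Fin 2) ℝ) : Matrix (Fin 2) (Fin 2) ℝ) 1 0 = 0
    rw [val_heckeMatrix hN]
    rfl
  have hb1 : IsBoundedAtImInfty ((E2 ∣[(2 : ℤ)] S) ∣[(2 : ℤ)] heckeMatrix p 0) :=
    s16eis_E2_slash_S_bdd.slash 2 h10
  exact hb1.sub s16eis_E2_slash_S_bdd

/-- `E₂ ∣ diag(p,1)` is bounded at `i∞` -/
theorem s16eis_E2_slash_diag_bdd : IsBoundedAtImInfty (E2 ∣[(2 : ℤ)] heckeDiagMatrix p) := by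
  have hN : p ≠ 0 := hp.out.ne_zero
  have h10 : (heckeDiagMatrix p : GL (Fin 2) ℝ) 1 0 = 0 := by
    show ((heckeDiagMatrix p : GL (Fin 2) ℝ) : Matrix (Fin 2) (Fin 2) ℝ) 1 0 = 0
    rw [val_heckeDiagMatrix hN]
    rfl
  exact isBoundedAtImInfty_E2.slash 2 h10

theorem s16eisFun_bdd : IsBoundedAtImInfty (s16eisFun p) :=
  (s16eis_E2_slash_diag_bdd p).sub isBoundedAtImInfty_E2

/-- bounded at all cusps -/
theorem s16eisFun_bdd_all (γ : SL(2, ℤ)) : IsBoundedAtImInfty (s16eisFun p ∣[(2 : ℤ)] γ) := by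
  obtain ⟨i, hi⟩ := s16ub_coset p γ
  have hγ : γ = (γ * (s16ubRep p i)⁻¹) * s16ubRep p i := by group
  rw [hγ, SlashAction.slash_mul, s16eisFun_slash p _ hi]
  rcases i with _ | j
  · rw [s16ubRep_none, SlashAction.slash_one]
    exact s16eisFun_bdd p
  · rw [s16ubRep_some, SlashAction.slash_mul]
    show IsBoundedAtImInfty ((s16eisFun p ∣[(2 : ℤ)] S) ∣[(2 : ℤ)]
      ((T ^ (j : ℕ) : SL(2, ℤ)) : GL (Fin 2) ℝ))
    refine (s16eisFun_slash_S_bdd p).slash 2 ?_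
    show (((T ^ (j : ℕ) : SL(2, ℤ)) : GL (Fin 2) ℝ) : Matrix (Fin 2) (Fin 2) ℝ) 1 0 = 0
    rw [s16eis_coe_GL_apply]
    have hT : ((T ^ (j : ℕ) : SL(2, ℤ)) : Matrix (Fin 2) (Fin 2) ℤ) = !![1, ((j : ℕ) : ℤ); 0, 1] := by
      have := ModularGroup.coe_T_zpow ((j : ℕ) : ℤ)
      rw [zpow_natCast] at this
      exact this
    have : (T ^ (j : ℕ) : SL(2, ℤ)) 1 0 = 0 := by
      show ((T ^ (j : ℕ) : SL(2, ℤ)) : Matrix (Fin 2) (Fin 2) ℤ) 1 0 = 0
      rw [hT]; rfl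
    rw [this]
    simp

/-- the modular form `E₂ ∣ diag(p,1) - E₂` of level `Γ₀(p)` -/
def s16eisForm : ModularForm (Gamma0 p) 2 :=
  haveI : NeZero p := ⟨hp.out.ne_zero⟩
  { toFun := s16eisFun p
    slash_action_eq' := fun _ ⟨γ, hγ, h⟩ => h ▸ s16eisFun_slash p γ hγ
    holo' := s16eisFun_mdiff p
    bdd_at_cusps' := fun {c} hc => by
      rw [Subgroup.IsArithmetic.isCusp_iff_isCusp_SL2Z] at hc
      rw [OnePoint.isBoundedAt_iff_forall_SL2Z hc]
      intro γ _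
      exact s16eisFun_bdd_all p γ }

theorem coe_s16eisForm : ⇑(s16eisForm p) = s16eisFun p := rfl

open P2MW.S_UpperHalfPlane_qCoeff_heckeT.M4cP1W2 in
theorem s16eis_analyticAt_diag :
    AnalyticAt ℂ (cuspFunction 1 (E2 ∣[(2 : ℤ)] heckeDiagMatrix p)) 0 := by
  have hN : p ≠ 0 := hp.out.ne_zero
  have hper := Fermat.Agent.S24.periodic_E2_comp_ofComplex
  have hvadd : ∀ τ : ℍ, (E2 ∣[(2 : ℤ)] heckeDiagMatrix p) ((1 : ℝ) +ᵥ τ) =
      (E2 ∣[(2 : ℤ)] heckeDiagMatrix p) τ := by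
    intro τ
    rw [slash_heckeDiagMatrix_apply 2 hN, slash_heckeDiagMatrix_apply 2 hN,
      apply_eq_of_coe_eq_add_nat hper p (coe_heckeDiagMatrix_smul_vadd hN τ)]
  exact analyticAt_cuspFunction_zero one_pos (periodic_comp_ofComplex_of_vadd hvadd)
    (E2_mdifferentiable.slash 2 _) (s16eis_E2_slash_diag_bdd p)

theorem s16eis_analyticAt_fun : AnalyticAt ℂ (cuspFunction 1 (s16eisFun p)) 0 := by
  unfold s16eisFun
  rw [cuspFunction_sub (s16eis_analyticAt_diag p).continuousAt s16eis_analyticAt_E2.continuousAt]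
  exact (s16eis_analyticAt_diag p).sub s16eis_analyticAt_E2

/-- the `q`-expansion of `E₂ ∣ diag(p,1) - E₂` -/
theorem s16eis_qExpansion_fun (n : ℕ) :
    (qExpansion 1 (s16eisFun p)).coeff n =
      (if p ∣ n then (p : ℂ) * (qExpansion 1 E2).coeff (n / p) else 0) -
        (qExpansion 1 E2).coeff n := by
  have hN : p ≠ 0 := hp.out.ne_zero
  unfold s16eisFun
  rw [qExpansion_sub (s16eis_analyticAt_diag p) s16eis_analyticAt_E2, map_sub,
    Fermat.Agent.S23.qExpansion_slash_heckeDiagMatrix_coeff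
      Fermat.Agent.S24.periodic_E2_comp_ofComplex E2_mdifferentiable isBoundedAtImInfty_E2 2 hN n]
  norm_num

end Mod

/-- **EIS**: the Eisenstein series `E = (p E₂(pz) - E₂(z))/24 ∈ M₂(Γ₀(p))`. -/
theorem s16_exists_eisenstein (p : ℕ) [Fact p.Prime] :
    ∃ E : ModularForm (CongruenceSubgroup.Gamma0 p) 2,
      ModularFormClass.qCoeff E 0 = ((p : ℂ) - 1) / 24 ∧
      ∀ n : ℕ, 1 ≤ n → ModularFormClass.qCoeff E n = (s16Sigma p n : ℂ) := by
  have hp : p.Prime := Fact.out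
  have hcoe : ∀ n, ModularFormClass.qCoeff (((1 / 24 : ℂ) • s16eisForm p :
      ModularForm (CongruenceSubgroup.Gamma0 p) 2)) n =
      (1 / 24 : ℂ) * (qExpansion 1 (s16eisFun p)).coeff n := by
    intro n
    have h1 : (⇑((1 / 24 : ℂ) • s16eisForm p) : ℍ → ℂ) = (1 / 24 : ℂ) • s16eisFun p := rfl
    rw [ModularFormClass.qCoeff, h1, qExpansion_smul (s16eis_analyticAt_fun p), map_smul,
      smul_eq_mul]
  refine ⟨(1 / 24 : ℂ) • s16eisForm p, ?_, fun n hn => ?_⟩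
  · rw [hcoe, s16eis_qExpansion_fun, if_pos (dvd_zero p), Nat.zero_div, s16eis_qExpansion_E2,
      if_pos rfl]
    ring
  · have hn0 : n ≠ 0 := Nat.one_le_iff_ne_zero.mp hn
    have hsig := s16eis_sigma p hp n hn
    have hsigC : (ArithmeticFunction.sigma 1 n : ℂ) = (s16Sigma p n : ℂ) +
        (if p ∣ n then (p : ℂ) * (ArithmeticFunction.sigma 1 (n / p) : ℂ) else 0) := by
      have := congrArg (fun x : ℕ => (x : ℂ)) hsig
      rw [this]
      split_ifs <;> push_cast <;> ring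
    rw [hcoe, s16eis_qExpansion_fun, s16eis_qExpansion_E2 n, if_neg hn0, hsigC]
    split_ifs with hpn
    · have hnp : n / p ≠ 0 := by
        obtain ⟨m, rfl⟩ := hpn
        rw [Nat.mul_div_cancel_left m hp.pos]
        rintro rfl
        exact hn0 (mul_zero p)
      rw [s16eis_qExpansion_E2, if_neg hnp]
      ring
    · ring

end Fermat.Agent.S16
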