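/-
S16-SMALL (helper19): `p < 5` (i.e. `p ∈ {2, 3}`): `S₂(Γ₀(p)) = 0` by the Sturm bound
(`[SL₂ ℤ : Γ₀(p)] ≤ p + 1`), so `S16Cong p d f` forces `d = 1`.
-/
import Fermat.Agent.S16.Defs
import Fermat.Agent.S16.UB.Coset
import Fermat.Prelude.Thm_ModularForm_sturm_bound_Gamma0
import Fermat.Prelude.Thm_CongruenceSubgroup_one_mem_strictPeriods_Gamma0

set_option autoImplicit false

open ModularCurve CuspForm
open UpperHalfPlane hiding I
open scoped MatrixGroups ModularForm

namespace Fermat.Agent.S16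

/-- `[SL₂ ℤ : Γ₀(p)] ≤ p + 1` -/
theorem s16small_index_le (p : ℕ) [Fact p.Prime] :
    (CongruenceSubgroup.Gamma0 p).index ≤ p + 1 := by
  classical
  have hex : ∀ q : SL(2, ℤ) ⧸ CongruenceSubgroup.Gamma0 p,
      ∃ i : Option (Fin p), (q.out)⁻¹ * (s16ubRep p i)⁻¹ ∈ CongruenceSubgroup.Gamma0 p :=
    fun q => s16ub_coset (p := p) (q.out)⁻¹
  choose idx hidx using hex
  have hinj : Function.Injective idx := by
    intro q1 q2 h
    have h1 := hidx q1
    have h2 := hidx q2
    rw [← h] at h2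
    have h3 : (q1.out)⁻¹ * q2.out ∈ CongruenceSubgroup.Gamma0 p := by
      have := (CongruenceSubgroup.Gamma0 p).mul_mem h1
        ((CongruenceSubgroup.Gamma0 p).inv_mem h2)
      simpa [mul_assoc] using this
    rw [← QuotientGroup.out_eq' q1, ← QuotientGroup.out_eq' q2]
    exact QuotientGroup.eq.mpr h3
  have := Nat.card_le_card_of_injective _ hinj
  rw [Subgroup.index]
  calc Nat.card _ ≤ Nat.card (Option (Fin p)) := this
    _ = p + 1 := by simp

/-- `S₂(Γ₀(p)) = 0` for `p < 5` -/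
theorem s16small_eq_zero (p : ℕ) [Fact p.Prime] (hp : p < 5)
    (f : CuspForm (CongruenceSubgroup.Gamma0 p) 2) : f = 0 := by
  have hg : (ModularFormClass.modularForm f : ModularForm (CongruenceSubgroup.Gamma0 p) 2) = 0 := by
    apply ModularForm.sturm_bound_Gamma0 p
    intro n hn
    have hn0 : n = 0 := by
      have h4 := s16small_index_le p
      have : ((2 : ℤ) * ((CongruenceSubgroup.Gamma0 p).index : ℤ)).toNat ≤ 10 := by
        omega
      omega
    subst hn0
    exact CuspFormClass.qExpansion_coeff_zero f one_pos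
      (CongruenceSubgroup.one_mem_strictPeriods_Gamma0 p)
  ext z
  exact congrArg (fun h : ModularForm (CongruenceSubgroup.Gamma0 p) 2 => h z) hg

theorem s16small_sigma_one (p : ℕ) [Fact p.Prime] : s16Sigma p 1 = 1 := by
  have hp : ¬ p ∣ 1 := (Fact.out : p.Prime).one_lt.ne' ∘ Nat.dvd_one.1
  unfold s16Sigma
  rw [Nat.divisors_one, Finset.filter_singleton, if_pos hp, Finset.sum_singleton]

/-- **MF-small**. -/
theorem s16_mf_small (p : ℕ) [Fact p.Prime] (hp : p < 5) (d : ℕ)
    (f : CuspForm (CongruenceSubgroup.Gamma0 p) 2) (hf : S16Cong p d f) :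
    d ∣ eisensteinNumerator p := by
  obtain ⟨m, hm, hmd⟩ := hf 1 le_rfl
  rw [s16small_eq_zero p hp f] at hm
  have hm0 : m = 0 := by
    have h0 : ModularFormClass.qCoeff
        ⇑(0 : CuspForm (CongruenceSubgroup.Gamma0 p) 2) 1 = 0 := by
      unfold ModularFormClass.qCoeff
      rw [FunLike.coe_zero, UpperHalfPlane.qExpansion_zero, map_zero]
    rw [h0] at hm
    exact_mod_cast hm.symm
  rw [hm0, s16small_sigma_one, Int.cast_zero, Nat.cast_one] at hmd
  have hd1 : d ∣ 1 := by
    rw [← ZMod.natCast_eq_zero_iff, Nat.cast_one]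
    exact hmd.symm
  exact hd1.trans (one_dvd _)

end Fermat.Agent.S16
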