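/-
S16-TR (row 392, proved by helper11 in `S16/UB/Trace.lean`): the interface form with `s16U`.
-/
import Fermat.Agent.S16.Defs
import Fermat.Agent.S16.UB.Trace

set_option autoImplicit false

open ModularCurve CuspForm
open UpperHalfPlane hiding I
open scoped MatrixGroups ModularForm
open EisensteinSeries ModularForm

namespace Fermat.Agent.S16

/-- **TR**: for `F, G ∈ M₂(Γ₀(p))`: `F|W = -U F` (trace to `M₂(SL₂ ℤ) = 0`) and
`Tr(F G) = F G + p⁻¹ U((F|W)(G|W)) ∈ M₄(SL₂ ℤ) = ℂ E₄`. -/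
theorem s16_trace_mul (p : ℕ) [Fact p.Prime]
    (F G : ModularForm (CongruenceSubgroup.Gamma0 p) 2) :
    ∃ c : ℂ, qExpansion 1 F * qExpansion 1 G +
        PowerSeries.C ((p : ℂ)⁻¹) *
          s16U p (s16U p (qExpansion 1 F) * s16U p (qExpansion 1 G)) =
      PowerSeries.C c * qExpansion 1 E₄ :=
  s16ub_trace_mul p F G

end Fermat.Agent.S16
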