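/-
S16-UBeasy (row 393, helper8): the five "easy" upper-bound cases (a), (b), (d), (e), (f) from
TR (`s16_trace_mul`) + EIS (as the explicit hypothesis `S16Eis p`).

Route: write `G = 1 + ℓ^e g`.  TR for `(E, G)` and `(G, G)`, multiplied by `p` and read at `q^n`,
`n = 1, 2`, gives rational identities
  `(p+1) σ'(n) + (p-1)/24 · u + s = (p+1) (p-1)/24 · e₄(n)`,   `2 u + t = (p+1) e₄(n)`
with `|u|, |s| ≤ ℓ^{-e}`, `|t| ≤ ℓ^{-2e}` (`ℓ`-adic norm); each case is then pure arithmetic.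
-/
import Fermat.Agent.S16.TraceMul
import Fermat.Agent.S16.Dual.Coeff
import Fermat.Agent.S24.JExp

set_option autoImplicit false
set_option linter.style.haveILetI false
set_option linter.unusedVariables false

open ModularCurve CuspForm
open UpperHalfPlane hiding I
open scoped MatrixGroups ModularForm
open EisensteinSeries ModularForm

namespace Fermat.Agent.S16

/-- the statement of EIS (`s16_exists_eisenstein`), as a hypothesis -/
def S16Eis (p : ℕ) : Prop :=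
  ∃ E : ModularForm (CongruenceSubgroup.Gamma0 p) 2,
    ModularFormClass.qCoeff E 0 = ((p : ℂ) - 1) / 24 ∧
    ∀ n : ℕ, 1 ≤ n → ModularFormClass.qCoeff E n = (s16Sigma p n : ℂ)

/-! ### `ℓ`-adic norm conversions -/

section Norm

variable (ℓ : ℕ) [hℓ : Fact ℓ.Prime]

theorem s16ube_norm_le_of_val (e : ℕ) (r : ℚ) (h : r = 0 ∨ (e : ℤ) ≤ padicValRat ℓ r) :
    padicNorm ℓ r ≤ ((ℓ : ℚ) ^ e)⁻¹ := by
  have hℓ1 : (1 : ℚ) ≤ ℓ := by exact_mod_cast hℓ.out.one_lt.le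
  rcases h with rfl | h
  · rw [padicNorm.zero]
    positivity
  · by_cases hr : r = 0
    · rw [hr, padicNorm.zero]
      positivity
    · rw [padicNorm.eq_zpow_of_nonzero hr, ← zpow_natCast, ← zpow_neg]
      exact zpow_le_zpow_right₀ hℓ1 (by omega)

theorem s16ube_dvd_of_norm_le (e : ℕ) (z : ℤ) (h : padicNorm ℓ (z : ℚ) ≤ ((ℓ : ℚ) ^ e)⁻¹) :
    ((ℓ ^ e : ℕ) : ℤ) ∣ z := by
  rw [padicNorm.dvd_iff_norm_le, zpow_neg, zpow_natCast]
  exact h

theorem s16ube_norm_mul_le {x y a b : ℚ} (hx : padicNorm ℓ x ≤ a) (hy : padicNorm ℓ y ≤ b) :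
    padicNorm ℓ (x * y) ≤ a * b := by
  rw [padicNorm.mul]
  exact mul_le_mul hx hy (padicNorm.nonneg _) ((padicNorm.nonneg _).trans hx)

theorem s16ube_norm_add_le {x y a : ℚ} (hx : padicNorm ℓ x ≤ a) (hy : padicNorm ℓ y ≤ a) :
    padicNorm ℓ (x + y) ≤ a :=
  padicNorm.nonarchimedean.trans (max_le hx hy)

end Norm

/-! ### splitting an antidiagonal sum -/

theorem s16ube_antidiagonal_split (m : ℕ) (hm : 1 ≤ m) (h : ℕ × ℕ → ℚ) :
    ∑ x ∈ Finset.HasAntidiagonal.antidiagonal m, h x = h (0, m) + h (m, 0) +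
      ∑ x ∈ (Finset.HasAntidiagonal.antidiagonal m).filter (fun x => x.1 ≠ 0 ∧ x.2 ≠ 0), h x := by
  classical
  have h1 : (0, m) ∈ Finset.HasAntidiagonal.antidiagonal m := by simp
  have h2 : (m, 0) ∈ (Finset.HasAntidiagonal.antidiagonal m).erase (0, m) := by
    rw [Finset.mem_erase]
    refine ⟨?_, by simp⟩
    intro h
    have := congrArg Prod.fst h
    simp at this
    omega
  rw [← Finset.add_sum_erase _ _ h1, ← Finset.add_sum_erase _ _ h2, add_assoc]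
  congr 2
  apply Finset.sum_congr _ (fun _ _ => rfl)
  ext ⟨i, j⟩
  simp only [Finset.mem_erase, Finset.mem_filter, Finset.HasAntidiagonal.mem_antidiagonal, ne_eq, Prod.mk.injEq]
  constructor
  · rintro ⟨h3, h4, h5⟩
    refine ⟨h5, ?_, ?_⟩
    · intro hi; apply h4; omega
    · intro hj; apply h3; omega
  · rintro ⟨h5, hi, hj⟩
    exact ⟨fun h => hj h.2, fun h => hi h.1, h5⟩

/-! ### TR in rational coefficients -/

theorem s16ube_coeff_U (p : ℕ) (φ : PowerSeries ℂ) (n : ℕ) :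
    PowerSeries.coeff n (s16U p φ) = PowerSeries.coeff (p * n) φ := by
  rw [s16U, PowerSeries.coeff_mk]

/-- the coefficients `e₄(n)` of `E₄` -/
noncomputable def s16ubeE4 (n : ℕ) : ℤ := PowerSeries.coeff n eisenstein4

theorem s16ubeE4_zero : s16ubeE4 0 = 1 := by
  simp [s16ubeE4, eisenstein4]

theorem s16ubeE4_one : s16ubeE4 1 = 240 := by
  simp [s16ubeE4, eisenstein4]

theorem s16ubeE4_two : s16ubeE4 2 = 2160 := by
  have h : Nat.divisors 2 = {1, 2} := by decide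
  simp [s16ubeE4, eisenstein4, h]

theorem s16ube_coeff_E4 (n : ℕ) :
    PowerSeries.coeff n (qExpansion 1 E₄) = ((s16ubeE4 n : ℤ) : ℂ) := by
  rw [Fermat.Agent.S24.jexp_qExpansion_E4, PowerSeries.coeff_map, eq_intCast]
  rfl

/-- **TR in rational coefficients**, multiplied by `p`: for `F, G ∈ M₂(Γ₀(p))` with rational
`q`-coefficients `f`, `g` and `n ≥ 1`. -/
theorem s16ube_trq (p : ℕ) [Fact p.Prime] (F G : ModularForm (CongruenceSubgroup.Gamma0 p) 2)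
    (f g : ℕ → ℚ) (hf : ∀ n, ModularFormClass.qCoeff F n = (f n : ℂ))
    (hg : ∀ n, ModularFormClass.qCoeff G n = (g n : ℂ)) (n : ℕ) :
    (p : ℚ) * ∑ x ∈ Finset.HasAntidiagonal.antidiagonal n, f x.1 * g x.2 +
        ∑ x ∈ Finset.HasAntidiagonal.antidiagonal (p * n), f (p * x.1) * g (p * x.2) =
      ((p : ℚ) + 1) * f 0 * g 0 * (s16ubeE4 n : ℚ) := by
  obtain ⟨c, hc⟩ := s16_trace_mul p F G
  have hp0 : (p : ℂ) ≠ 0 := by
    exact_mod_cast (Fact.out : p.Prime).ne_zero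
  have key : ∀ m : ℕ, (∑ x ∈ Finset.HasAntidiagonal.antidiagonal m, (f x.1 : ℂ) * (g x.2 : ℂ)) +
      (p : ℂ)⁻¹ * ∑ x ∈ Finset.HasAntidiagonal.antidiagonal (p * m),
        (f (p * x.1) : ℂ) * (g (p * x.2) : ℂ) = c * ((s16ubeE4 m : ℤ) : ℂ) := by
    intro m
    have h := congrArg (PowerSeries.coeff m) hc
    rw [map_add, PowerSeries.coeff_C_mul, PowerSeries.coeff_C_mul, s16ube_coeff_U,
      PowerSeries.coeff_mul, PowerSeries.coeff_mul, s16ube_coeff_E4] at h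
    rw [← h]
    congr 1
    · apply Finset.sum_congr rfl
      intro x _
      rw [← hf, ← hg]
      rfl
    · congr 1
      apply Finset.sum_congr rfl
      intro x _
      rw [s16ube_coeff_U, s16ube_coeff_U, ← hf, ← hg]
      rfl
  have h0 := key 0
  rw [mul_zero, s16ubeE4_zero] at h0
  simp only [Finset.Nat.antidiagonal_zero, Finset.sum_singleton, mul_zero, Int.cast_one, mul_one] at h0
  have hn := key n
  have hc' : (p : ℂ) * c = ((p : ℂ) + 1) * (f 0 : ℂ) * (g 0 : ℂ) := by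
    rw [← h0]
    field_simp
  have h1 : (p : ℂ) * ∑ x ∈ Finset.HasAntidiagonal.antidiagonal n, (f x.1 : ℂ) * (g x.2 : ℂ) +
      ∑ x ∈ Finset.HasAntidiagonal.antidiagonal (p * n), (f (p * x.1) : ℂ) * (g (p * x.2) : ℂ) =
      ((p : ℂ) + 1) * (f 0 : ℂ) * (g 0 : ℂ) * ((s16ubeE4 n : ℤ) : ℂ) := by
    rw [← hc', mul_assoc, ← hn]
    field_simp
  exact_mod_cast h1

/-! ### the bridge: from `S16Unit` + EIS to rational identities with `ℓ`-adic bounds -/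

theorem s16ube_bridge (p : ℕ) [Fact p.Prime] (hEIS : S16Eis p) (ℓ : ℕ) [Fact ℓ.Prime] (e : ℕ)
    (h : S16Unit p ℓ e) (n : ℕ) (hn : 1 ≤ n) :
    ∃ u s t : ℚ, padicNorm ℓ u ≤ ((ℓ : ℚ) ^ e)⁻¹ ∧ padicNorm ℓ s ≤ ((ℓ : ℚ) ^ e)⁻¹ ∧
      padicNorm ℓ t ≤ ((ℓ : ℚ) ^ e)⁻¹ * ((ℓ : ℚ) ^ e)⁻¹ ∧
      ((p : ℚ) + 1) * (s16Sigma p n : ℚ) + ((p : ℚ) - 1) / 24 * u + s =
        ((p : ℚ) + 1) * (((p : ℚ) - 1) / 24) * (s16ubeE4 n : ℚ) ∧
      2 * u + t = ((p : ℚ) + 1) * (s16ubeE4 n : ℚ) := by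
  classical
  obtain ⟨E, hE0, hEn⟩ := hEIS
  obtain ⟨G, hG0, hGn⟩ := h
  have hp : p.Prime := Fact.out
  have hp1 : 1 ≤ p := hp.one_lt.le
  set δ : ℚ := ((ℓ : ℚ) ^ e)⁻¹ with hδ
  have hδ0 : 0 ≤ δ := by rw [hδ]; positivity
  -- rational coefficient functions
  set ε : ℕ → ℚ := fun m => if m = 0 then ((p : ℚ) - 1) / 24 else (s16Sigma p m : ℚ) with hεdef
  have hε : ∀ m, ModularFormClass.qCoeff E m = (ε m : ℂ) := by
    intro m
    by_cases hm : m = 0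
    · subst hm
      rw [hE0, hεdef]
      simp
    · rw [hEn m (Nat.one_le_iff_ne_zero.mpr hm), hεdef]
      simp [hm]
  choose! r hr using hGn
  set g : ℕ → ℚ := fun m => if m = 0 then 1 else r m with hgdef
  have hg : ∀ m, ModularFormClass.qCoeff G m = (g m : ℂ) := by
    intro m
    by_cases hm : m = 0
    · subst hm
      rw [hG0, hgdef]
      simp
    · rw [(hr m (Nat.one_le_iff_ne_zero.mpr hm)).1, hgdef]
      simp [hm]
  have hg0 : g 0 = 1 := by simp [hgdef]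
  have hε0 : ε 0 = ((p : ℚ) - 1) / 24 := by simp [hεdef]
  have hεm : ∀ m, m ≠ 0 → ε m = (s16Sigma p m : ℚ) := fun m hm => by simp [hεdef, hm]
  have hgN : ∀ m, m ≠ 0 → padicNorm ℓ (g m) ≤ δ := by
    intro m hm
    have : g m = r m := by simp [hgdef, hm]
    rw [this]
    exact s16ube_norm_le_of_val ℓ e _ (hr m (Nat.one_le_iff_ne_zero.mpr hm)).2
  have hεN : ∀ m, m ≠ 0 → padicNorm ℓ (ε m) ≤ 1 := by
    intro m hm
    rw [hεm m hm]
    exact padicNorm.of_nat _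
  have hpN : padicNorm ℓ (p : ℚ) ≤ 1 := padicNorm.of_nat _
  have hpn : 1 ≤ p * n := Nat.one_le_iff_ne_zero.mpr (Nat.mul_ne_zero hp.ne_zero (by omega))
  have hn0 : n ≠ 0 := by omega
  have hppn : p * (p * n) ≠ 0 := Nat.mul_ne_zero hp.ne_zero (by omega)
  have hσ : s16Sigma p (p * (p * n)) = s16Sigma p n := by
    rw [s16coeff_sigma_p p (p * n) (by omega), s16coeff_sigma_p p n hn0]
  have T1 := s16ube_trq p E G ε g hε hg n
  have T2 := s16ube_trq p G G g g hg hg n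
  rw [s16ube_antidiagonal_split n hn, s16ube_antidiagonal_split (p * n) hpn] at T1 T2
  simp only [mul_zero, hg0, hε0, mul_one, one_mul] at T1 T2
  rw [hεm n hn0, hεm _ hppn, hσ] at T1
  -- the interior sums
  set I₁ := ∑ x ∈ (Finset.HasAntidiagonal.antidiagonal n).filter (fun x => x.1 ≠ 0 ∧ x.2 ≠ 0),
    ε x.1 * g x.2 with hI₁
  set J₁ := ∑ x ∈ (Finset.HasAntidiagonal.antidiagonal (p * n)).filter
    (fun x => x.1 ≠ 0 ∧ x.2 ≠ 0), ε (p * x.1) * g (p * x.2) with hJ₁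
  set I₂ := ∑ x ∈ (Finset.HasAntidiagonal.antidiagonal n).filter (fun x => x.1 ≠ 0 ∧ x.2 ≠ 0),
    g x.1 * g x.2 with hI₂
  set J₂ := ∑ x ∈ (Finset.HasAntidiagonal.antidiagonal (p * n)).filter
    (fun x => x.1 ≠ 0 ∧ x.2 ≠ 0), g (p * x.1) * g (p * x.2) with hJ₂
  have hI₁N : padicNorm ℓ I₁ ≤ δ := by
    apply padicNorm.sum_le' _ hδ0
    intro x hx
    rw [Finset.mem_filter] at hx
    have := s16ube_norm_mul_le ℓ (hεN x.1 hx.2.1) (hgN x.2 hx.2.2)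
    rwa [one_mul] at this
  have hJ₁N : padicNorm ℓ J₁ ≤ δ := by
    apply padicNorm.sum_le' _ hδ0
    intro x hx
    rw [Finset.mem_filter] at hx
    have := s16ube_norm_mul_le ℓ (hεN (p * x.1) (Nat.mul_ne_zero hp.ne_zero hx.2.1))
      (hgN (p * x.2) (Nat.mul_ne_zero hp.ne_zero hx.2.2))
    rwa [one_mul] at this
  have hI₂N : padicNorm ℓ I₂ ≤ δ * δ := by
    apply padicNorm.sum_le' _ (mul_nonneg hδ0 hδ0)
    intro x hx
    rw [Finset.mem_filter] at hx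
    exact s16ube_norm_mul_le ℓ (hgN x.1 hx.2.1) (hgN x.2 hx.2.2)
  have hJ₂N : padicNorm ℓ J₂ ≤ δ * δ := by
    apply padicNorm.sum_le' _ (mul_nonneg hδ0 hδ0)
    intro x hx
    rw [Finset.mem_filter] at hx
    exact s16ube_norm_mul_le ℓ (hgN (p * x.1) (Nat.mul_ne_zero hp.ne_zero hx.2.1))
      (hgN (p * x.2) (Nat.mul_ne_zero hp.ne_zero hx.2.2))
  have hmulp : ∀ {y a : ℚ}, padicNorm ℓ y ≤ a → padicNorm ℓ ((p : ℚ) * y) ≤ a := by
    intro y a hy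
    have := s16ube_norm_mul_le ℓ hpN hy
    rwa [one_mul] at this
  refine ⟨(p : ℚ) * g n + g (p * (p * n)), (p : ℚ) * I₁ + J₁, (p : ℚ) * I₂ + J₂, ?_, ?_, ?_, ?_, ?_⟩
  · exact s16ube_norm_add_le ℓ (hmulp (hgN n hn0)) (hgN _ hppn)
  · exact s16ube_norm_add_le ℓ (hmulp hI₁N) hJ₁N
  · exact s16ube_norm_add_le ℓ (hmulp hI₂N) hJ₂N
  · linear_combination T1
  · linear_combination T2

/-! ### the cases with `ℓ`-integral constant term `(p-1)/24`: (a), (b), (d) -/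

theorem s16ube_sigma_two (p : ℕ) [Fact p.Prime] (hp : 5 ≤ p) : s16Sigma p 2 = 3 := by
  have h := s16coeff_sigma_l p 2 1 Nat.prime_two (by omega) one_ne_zero
  rw [s16coeff_sigma_one, if_neg (by decide), mul_one, add_zero] at h
  exact h

/-- `ℓ ∣ (p+1)(10(p-1) - 1)` and `ℓ ∣ (p+1)(90(p-1) - 3)` when `(p-1)/24` is `ℓ`-integral. -/
theorem s16ube_dvd (p : ℕ) [Fact p.Prime] (hp : 5 ≤ p) (hEIS : S16Eis p) (ℓ : ℕ) [Fact ℓ.Prime]
    (ha : padicNorm ℓ (((p : ℚ) - 1) / 24) ≤ 1) (h : S16Unit p ℓ 1) :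
    (ℓ : ℤ) ∣ ((p : ℤ) + 1) * (10 * ((p : ℤ) - 1) - 1) ∧
      (ℓ : ℤ) ∣ ((p : ℤ) + 1) * (90 * ((p : ℤ) - 1) - 3) := by
  have hδ : ((ℓ : ℚ) ^ 1)⁻¹ ≤ 1 := by
    rw [pow_one]
    apply inv_le_one_of_one_le₀
    exact_mod_cast (Fact.out : ℓ.Prime).one_lt.le
  constructor
  · obtain ⟨u, s, t, hu, hs, -, h4, -⟩ := s16ube_bridge p hEIS ℓ 1 h 1 le_rfl
    rw [s16coeff_sigma_one, s16ubeE4_one] at h4
    have hz : (((((p : ℤ) + 1) * (10 * ((p : ℤ) - 1) - 1) : ℤ)) : ℚ) =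
        ((p : ℚ) - 1) / 24 * u + s := by
      push_cast at h4 ⊢
      linear_combination -h4
    have := s16ube_dvd_of_norm_le ℓ 1 _ (by
      rw [hz]
      refine s16ube_norm_add_le ℓ ?_ hs
      have := s16ube_norm_mul_le ℓ ha hu
      rwa [one_mul] at this)
    rwa [pow_one] at this
  · obtain ⟨u, s, t, hu, hs, -, h4, -⟩ := s16ube_bridge p hEIS ℓ 1 h 2 (by norm_num)
    rw [s16ube_sigma_two p hp, s16ubeE4_two] at h4
    have hz : (((((p : ℤ) + 1) * (90 * ((p : ℤ) - 1) - 3) : ℤ)) : ℚ) =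
        ((p : ℚ) - 1) / 24 * u + s := by
      push_cast at h4 ⊢
      linear_combination -h4
    have := s16ube_dvd_of_norm_le ℓ 1 _ (by
      rw [hz]
      refine s16ube_norm_add_le ℓ ?_ hs
      have := s16ube_norm_mul_le ℓ ha hu
      rwa [one_mul] at this)
    rwa [pow_one] at this

/-- cases (a) and (b) together: `ℓ ≥ 5`, `ℓ ∤ p + 1` (`ℓ = p` allowed). -/
theorem s16ube_ab (p : ℕ) [Fact p.Prime] (hp : 5 ≤ p) (hEIS : S16Eis p) (ℓ : ℕ) (hℓ : ℓ.Prime)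
    (h5 : 5 ≤ ℓ) (hndvd : ¬ ℓ ∣ p + 1) : ¬ S16Unit p ℓ 1 := by
  intro h
  haveI : Fact ℓ.Prime := ⟨hℓ⟩
  have h24 : padicNorm ℓ (24 : ℚ) = 1 := by
    have : ¬ ℓ ∣ 24 := by
      intro hd
      have h1 : ℓ ∣ 2 ^ 3 * 3 := by norm_num; exact hd
      rcases (Nat.Prime.dvd_mul hℓ).mp h1 with h2 | h2
      · have := Nat.le_of_dvd (by norm_num) (hℓ.dvd_of_dvd_pow h2)
        omega
      · have := Nat.le_of_dvd (by norm_num) h2
        omega
    have := (padicNorm.nat_eq_one_iff (p := ℓ) 24).mpr this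
    exact_mod_cast this
  have ha : padicNorm ℓ (((p : ℚ) - 1) / 24) ≤ 1 := by
    rw [padicNorm.div, h24, div_one]
    have : ((p : ℚ) - 1) = (((p : ℤ) - 1 : ℤ) : ℚ) := by push_cast; ring
    rw [this]
    exact padicNorm.of_int _
  obtain ⟨h1, h2⟩ := s16ube_dvd p hp hEIS ℓ ha h
  have hℓZ : Prime (ℓ : ℤ) := Nat.prime_iff_prime_int.mp hℓ
  have hnd : ¬ (ℓ : ℤ) ∣ ((p : ℤ) + 1) := by
    intro hd
    apply hndvd
    have : (ℓ : ℤ) ∣ ((p + 1 : ℕ) : ℤ) := by push_cast; exact hd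
    exact Int.natCast_dvd_natCast.mp this
  have h1' := (hℓZ.dvd_or_dvd h1).resolve_left hnd
  have h2' := (hℓZ.dvd_or_dvd h2).resolve_left hnd
  have h6 : (ℓ : ℤ) ∣ 6 := by
    have := dvd_sub h2' (Dvd.dvd.mul_left h1' 9)
    have e : 90 * ((p : ℤ) - 1) - 3 - 9 * (10 * ((p : ℤ) - 1) - 1) = 6 := by ring
    rwa [e] at this
  have h6' : ℓ ∣ 6 := by
    have : (ℓ : ℤ) ∣ ((6 : ℕ) : ℤ) := by exact_mod_cast h6
    exact Int.natCast_dvd_natCast.mp this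
  have hle := Nat.le_of_dvd (by norm_num) h6'
  interval_cases ℓ
  · omega
  · exact absurd hℓ (by decide)

/-- case (d): `ℓ = 3`, `p ≡ 1 mod 3`. -/
theorem s16ube_d (p : ℕ) [Fact p.Prime] (hp : 5 ≤ p) (hEIS : S16Eis p) (h3 : p % 3 = 1) :
    ¬ S16Unit p 3 1 := by
  intro h
  haveI : Fact (Nat.Prime 3) := ⟨Nat.prime_three⟩
  obtain ⟨k, hk⟩ : ∃ k : ℕ, p = 3 * k + 1 := ⟨p / 3, by omega⟩
  have h8 : padicNorm 3 (8 : ℚ) = 1 := by
    have := (padicNorm.nat_eq_one_iff (p := 3) 8).mpr (by decide)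
    exact_mod_cast this
  have ha : padicNorm 3 (((p : ℚ) - 1) / 24) ≤ 1 := by
    have : ((p : ℚ) - 1) / 24 = (k : ℚ) / 8 := by
      rw [hk]; push_cast; ring
    rw [this, padicNorm.div, h8, div_one]
    exact padicNorm.of_nat _
  obtain ⟨h1, -⟩ := s16ube_dvd p hp hEIS 3 ha h
  have h1' : ((p : ℤ) + 1) * (10 * ((p : ℤ) - 1) - 1) % 3 = 0 :=
    Int.emod_eq_zero_of_dvd (by exact_mod_cast h1)
  rw [Int.mul_emod] at h1'
  have e1 : ((p : ℤ) + 1) % 3 = 2 := by rw [hk]; push_cast; omega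
  have e2 : (10 * ((p : ℤ) - 1) - 1) % 3 = 2 := by rw [hk]; push_cast; omega
  rw [e1, e2] at h1'
  norm_num at h1'

/-! ### the cases `ℓ = 2`: (e), (f) -/

section Two

theorem s16ube_norm_two_two : padicNorm 2 (2 : ℚ) = 1 / 2 := by
  haveI : Fact (Nat.Prime 2) := ⟨Nat.prime_two⟩
  have := padicNorm.padicNorm_p_of_prime (p := 2)
  rw [one_div]
  exact_mod_cast this

theorem s16ube_norm_two_three : padicNorm 2 (3 : ℚ) = 1 := by
  haveI : Fact (Nat.Prime 2) := ⟨Nat.prime_two⟩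
  have := (padicNorm.nat_eq_one_iff (p := 2) 3).mpr (by decide)
  exact_mod_cast this

theorem s16ube_norm_two_24 : padicNorm 2 (24 : ℚ) = 1 / 8 := by
  haveI : Fact (Nat.Prime 2) := ⟨Nat.prime_two⟩
  have : (24 : ℚ) = 2 * 2 * 2 * 3 := by norm_num
  rw [this, padicNorm.mul, padicNorm.mul, padicNorm.mul, s16ube_norm_two_two, s16ube_norm_two_three]
  norm_num

/-- common part of (e), (f): from `2 u + t = 240 (p + 1)` -/
theorem s16ube_two_core (p : ℕ) [Fact p.Prime] (hEIS : S16Eis p) (e : ℕ) (h : S16Unit p 2 e)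
    (A : ℚ) (hA : padicNorm 2 (((p : ℚ) - 1) / 24) ≤ A)
    (hdiv : ((2 ^ (2 * e) : ℕ) : ℤ) ∣ ((p : ℤ) + 1) * 240)
    (hAe : A * (2 * (((2 : ℚ) ^ e)⁻¹ * ((2 : ℚ) ^ e)⁻¹)) ≤ ((2 : ℚ) ^ e)⁻¹) :
    ((2 ^ e : ℕ) : ℤ) ∣ ((p : ℤ) + 1) * (10 * ((p : ℤ) - 1) - 1) := by
  haveI : Fact (Nat.Prime 2) := ⟨Nat.prime_two⟩
  obtain ⟨u, s, t, hu, hs, ht, h4, h5⟩ := s16ube_bridge p hEIS 2 e h 1 le_rfl
  rw [s16coeff_sigma_one, s16ubeE4_one] at h4
  rw [s16ubeE4_one] at h5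
  push_cast at hu hs ht
  set δ : ℚ := ((2 : ℚ) ^ e)⁻¹ with hδ
  have hδ0 : 0 ≤ δ := by rw [hδ]; positivity
  have h240 : padicNorm 2 ((((p : ℤ) + 1) * 240 : ℤ) : ℚ) ≤ δ * δ := by
    have := (padicNorm.dvd_iff_norm_le (p := 2)).mp hdiv
    rw [zpow_neg, zpow_natCast] at this
    have e2 : ((2 : ℚ) ^ (2 * e))⁻¹ = δ * δ := by
      rw [hδ, two_mul, pow_add, mul_inv]
    push_cast at this
    rw [e2] at this
    push_cast
    exact this
  have h2u : padicNorm 2 (2 * u) ≤ δ * δ := by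
    have e1 : 2 * u = ((((p : ℤ) + 1) * 240 : ℤ) : ℚ) - t := by
      push_cast
      linear_combination h5
    rw [e1]
    exact padicNorm.sub.trans (max_le h240 ht)
  have hu' : padicNorm 2 u ≤ 2 * (δ * δ) := by
    rw [padicNorm.mul, s16ube_norm_two_two] at h2u
    linarith
  have hau : padicNorm 2 (((p : ℚ) - 1) / 24 * u) ≤ δ :=
    (s16ube_norm_mul_le 2 hA hu').trans hAe
  have hz : (((((p : ℤ) + 1) * (10 * ((p : ℤ) - 1) - 1) : ℤ)) : ℚ) =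
      ((p : ℚ) - 1) / 24 * u + s := by
    push_cast at h4 ⊢
    linear_combination -h4
  apply s16ube_dvd_of_norm_le 2 e
  rw [hz]
  push_cast
  exact s16ube_norm_add_le 2 hau hs

/-- case (e): `ℓ = 2`, `p ≡ 1 mod 4`. -/
theorem s16ube_e (p : ℕ) [Fact p.Prime] (hp : 5 ≤ p) (hEIS : S16Eis p) (h4 : p % 4 = 1) :
    ¬ S16Unit p 2 2 := by
  intro h
  haveI : Fact (Nat.Prime 2) := ⟨Nat.prime_two⟩
  obtain ⟨k, hk⟩ : ∃ k : ℕ, p = 4 * k + 1 := ⟨p / 4, by omega⟩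
  have hA : padicNorm 2 (((p : ℚ) - 1) / 24) ≤ 2 := by
    have e1 : (p : ℚ) - 1 = 2 * 2 * (k : ℚ) := by rw [hk]; push_cast; ring
    rw [padicNorm.div, s16ube_norm_two_24, e1, padicNorm.mul, padicNorm.mul, s16ube_norm_two_two]
    have := padicNorm.of_nat (p := 2) k
    have h0 := padicNorm.nonneg (p := 2) (k : ℚ)
    rw [div_le_iff₀ (by norm_num)]
    nlinarith
  have hdiv : ((2 ^ (2 * 2) : ℕ) : ℤ) ∣ ((p : ℤ) + 1) * 240 := by
    refine ⟨((p : ℤ) + 1) * 15, ?_⟩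
    push_cast
    ring
  have h1 := s16ube_two_core p hEIS 2 h 2 hA hdiv (by norm_num)
  have h1' : ((p : ℤ) + 1) * (10 * ((p : ℤ) - 1) - 1) % 4 = 0 :=
    Int.emod_eq_zero_of_dvd (by exact_mod_cast h1)
  rw [Int.mul_emod] at h1'
  have e1 : ((p : ℤ) + 1) % 4 = 2 := by rw [hk]; push_cast; omega
  have e2 : (10 * ((p : ℤ) - 1) - 1) % 4 = 3 := by rw [hk]; push_cast; omega
  rw [e1, e2] at h1'
  norm_num at h1'

/-- case (f): `ℓ = 2`, `p ≡ 3 mod 8`. -/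
theorem s16ube_f (p : ℕ) [Fact p.Prime] (hp : 5 ≤ p) (hEIS : S16Eis p) (h8 : p % 8 = 3) :
    ¬ S16Unit p 2 3 := by
  intro h
  haveI : Fact (Nat.Prime 2) := ⟨Nat.prime_two⟩
  obtain ⟨k, hk⟩ : ∃ k : ℕ, p = 8 * k + 3 := ⟨p / 8, by omega⟩
  have hA : padicNorm 2 (((p : ℚ) - 1) / 24) ≤ 4 := by
    have e1 : (p : ℚ) - 1 = 2 * ((4 * k + 1 : ℕ) : ℚ) := by rw [hk]; push_cast; ring
    rw [padicNorm.div, s16ube_norm_two_24, e1, padicNorm.mul, s16ube_norm_two_two]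
    have := padicNorm.of_nat (p := 2) (4 * k + 1)
    have h0 := padicNorm.nonneg (p := 2) ((4 * k + 1 : ℕ) : ℚ)
    rw [div_le_iff₀ (by norm_num)]
    nlinarith
  have hdiv : ((2 ^ (2 * 3) : ℕ) : ℤ) ∣ ((p : ℤ) + 1) * 240 := by
    refine ⟨(2 * (k : ℤ) + 1) * 15, ?_⟩
    rw [hk]
    push_cast
    ring
  have h1 := s16ube_two_core p hEIS 3 h 4 hA hdiv (by norm_num)
  have h1' : ((p : ℤ) + 1) * (10 * ((p : ℤ) - 1) - 1) % 8 = 0 :=
    Int.emod_eq_zero_of_dvd (by exact_mod_cast h1)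
  rw [Int.mul_emod] at h1'
  have e1 : ((p : ℤ) + 1) % 8 = 4 := by rw [hk]; push_cast; omega
  have e2 : (10 * ((p : ℤ) - 1) - 1) % 8 = 3 := by rw [hk]; push_cast; omega
  rw [e1, e2] at h1'
  norm_num at h1'

end Two

end Fermat.Agent.S16
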