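/-
S16-UBeasy (row 393, helper8): `s16_ub_a`, `s16_ub_b`, `s16_ub_d`, `s16_ub_e`, `s16_ub_f`,
statements VERBATIM from `S16/Spec.lean`; proofs in `UbEasyCore.lean` (EIS as a hypothesis).
-/
import Fermat.Agent.S16.UbEasyCore
import Fermat.Agent.S16.Eis

set_option autoImplicit false

open ModularCurve CuspForm
open UpperHalfPlane hiding I
open scoped MatrixGroups ModularForm
open EisensteinSeries ModularForm

namespace Fermat.Agent.S16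

/-- (a) `ℓ ≥ 5`, `ℓ ≠ p`, `ℓ ∤ p + 1`: `Tr(E G) = c E₄` read mod `ℓ` at `q`, `q²`. -/
theorem s16_ub_a (p : ℕ) [Fact p.Prime] (hp : 5 ≤ p) (ℓ : ℕ) (hℓ : ℓ.Prime) (h5 : 5 ≤ ℓ)
    (hℓp : ℓ ≠ p) (hndvd : ¬ ℓ ∣ p + 1) : ¬ S16Unit p ℓ 1 :=
  s16ube_ab p hp (s16_exists_eisenstein p) ℓ hℓ h5 hndvd

/-- (b) `ℓ = p ≥ 5`: `p Tr(E G) = c E₄` read mod `p`. -/
theorem s16_ub_b (p : ℕ) [Fact p.Prime] (hp : 5 ≤ p) : ¬ S16Unit p p 1 :=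
  s16ube_ab p hp (s16_exists_eisenstein p) p Fact.out hp (fun h => by
    have h1 : p ∣ 1 := (Nat.dvd_add_right (dvd_refl p)).mp h
    exact (Fact.out : p.Prime).one_lt.ne' (Nat.dvd_one.mp h1))

/-- (d) `ℓ = 3`, `p ≡ 1 mod 3`. -/
theorem s16_ub_d (p : ℕ) [Fact p.Prime] (hp : 5 ≤ p) (h3 : p % 3 = 1) : ¬ S16Unit p 3 1 :=
  s16ube_d p hp (s16_exists_eisenstein p) h3

/-- (e) `ℓ = 2`, `p ≡ 1 mod 4`: `Tr(G²)` mod 16 + `Tr(E G)`. -/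
theorem s16_ub_e (p : ℕ) [Fact p.Prime] (hp : 5 ≤ p) (h4 : p % 4 = 1) : ¬ S16Unit p 2 2 :=
  s16ube_e p hp (s16_exists_eisenstein p) h4

/-- (f) `ℓ = 2`, `p ≡ 3 mod 8`. -/
theorem s16_ub_f (p : ℕ) [Fact p.Prime] (hp : 5 ≤ p) (h8 : p % 8 = 3) : ¬ S16Unit p 2 3 :=
  s16ube_f p hp (s16_exists_eisenstein p) h8

end Fermat.Agent.S16
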