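/-
S16 ASSEMBLY (helper19, chief): the frozen statement (index of the Eisenstein ideal
`= (p-1)/gcd(p-1,12)`) from the packages
  LB (helper1, `LB/`), D (`Dual/`), ALG (`Alg.lean`), MF1 + case split (`Cases.lean`), SMALL (`Small.lean`),
  EIS (helper13, `Eis.lean`), TR + engine + cases (c),(g),(h) (helper11, helper1, helper16, `UB/`),
  cases (a),(b),(d),(e),(f) (helper8, `UbEasy*.lean`).
-/
import Fermat.Agent.S16.Alg
import Fermat.Agent.S16.Dual.Main
import Fermat.Agent.S16.Dual.Perfect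
import Fermat.Agent.S16.Dual.Coeff
import Fermat.Agent.S16.Cases
import Fermat.Agent.S16.Small
import Fermat.Agent.S16.Eis
import Fermat.Agent.S16.UbEasy
import Fermat.Agent.S16.UB.MainG
import Fermat.Agent.S16.UB.MainH
import Fermat.Agent.S16.UB.MainC
import Fermat.Agent.S23
import Fermat.Agent.S16.LB.Main

set_option autoImplicit false

open ModularCurve CuspForm

namespace Fermat.Agent.S16

/-- **LB** in the lattice form used by ALG (bridge: `latticeRestrictHom` is injective, S23). -/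
theorem s16_lb (p : ℕ) [Fact p.Prime] (P : HeckeAlg) (hP : s16Phi p P = 0) :
    (eisensteinNumerator p : ℤ) ∣ s16Ev p P := by
  apply Fermat.Agent.S16LB.s16lb_main p P
  have hinj := (latticeRestrictHom_bijective (N := p) (S := ∅) (Fermat.Agent.S23.result p)).1
  apply hinj
  rw [map_zero]
  exact hP

/-- **D2**: the pairing `(t, f) ↦ a₁(t f)` identifies `S₂(ℤ)` with `Hom(𝕋, ℤ)` (surjectivity). -/
theorem s16_perfect (p : ℕ) [Fact p.Prime] (lam : ↥(heckeLatticeAlgebra p ∅) →+ ℤ) :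
    ∃ f : ↥(intLattice p 2), ∀ t : ↥(heckeLatticeAlgebra p ∅),
      ModularFormClass.qCoeff
        (((t : Module.End ℤ ↥(intLattice p 2)) f : ↥(intLattice p 2)) :
          CuspForm (CongruenceSubgroup.Gamma0 p) 2) 1 = ((lam t : ℤ) : ℂ) :=
  s16_perfect_of p ∅ (fun n hn => by
    obtain ⟨P, -, hP⟩ := s16_exists_coeff_poly p n hn
    exact ⟨s16Phi p P, hP⟩) lam

/-- **D** (duality `𝕋 × S₂(ℤ) → ℤ`): an Eisenstein character of `𝕋` mod `d` is the reduction of
a cusp form congruent to the Eisenstein series mod `d`. -/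
theorem s16_duality (p : ℕ) [Fact p.Prime] (d : ℕ)
    (χ : ↥(heckeLatticeAlgebra p ∅) →+* ZMod d)
    (hχ : ∀ P : HeckeAlg, χ (s16Phi p P) = ((s16Ev p P : ℤ) : ZMod d)) :
    ∃ f : CuspForm (CongruenceSubgroup.Gamma0 p) 2, S16Cong p d f :=
  s16_duality_of p (s16_exists_coeff_poly p) (s16_perfect p) d χ hχ

/-- **UB**: assembly of the eight cases. -/
theorem s16_not_unit (p : ℕ) [Fact p.Prime] (hp : 5 ≤ p) (ℓ : ℕ) (hℓ : ℓ.Prime) :
    ¬ S16Unit p ℓ (s16Exp p ℓ) :=
  s16_not_unit_of p hp (s16_ub_a p hp) (s16_ub_b p hp) (s16_ub_c p hp) (s16_ub_d p hp)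
    (s16_ub_h p hp) (s16_ub_e p hp) (s16_ub_f p hp) (s16_ub_g p hp) ℓ hℓ

/-- **MF** (Eisenstein congruences): a cusp form congruent to `E'` mod `d` forces `d ∣ n`. -/
theorem s16_mf (p : ℕ) [Fact p.Prime] (d : ℕ)
    (f : CuspForm (CongruenceSubgroup.Gamma0 p) 2) (hf : S16Cong p d f) :
    d ∣ eisensteinNumerator p :=
  s16_mf_of p (fun h => s16_mf_small p h) (s16_exists_eisenstein p)
    (fun hp => s16_not_unit p hp) d f hf

/-- **ALG**: the frozen statement from LB + D + MF (`𝕋/I ≅ ℤ/ev(ker Φ)`). -/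
theorem s16_main (p : ℕ) [Fact p.Prime] :
    Nat.card (↥(heckeLatticeAlgebra p ∅) ⧸
        Ideal.map ((latticeRestrictHom p ∅).toRingHom.comp (heckeEvalForms p 2))
          (eisensteinIdeal p)) = eisensteinNumerator p :=
  s16_main_of p (s16_lb p) (s16_duality p) (s16_mf p)

end Fermat.Agent.S16
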